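import Fermat.Agent.Igusa.GoodRed.Main
import Fermat.Agent.Igusa.Down.Model
import Fermat.Agent.JacCharts.Laurent
import Fermat.Agent.ModCurve.Fun.Degree
import Fermat.Prelude.Def_FLTPrelim_Ramification

/-!
# Good reduction of `X₀(N)` at places over `ℓ ∤ N`

The model of `X₀(N)` gives a Laurent good reduction datum, hence the reduction inputs and the
injectivity of reduction on torsion of order prime to `ℓ`.
-/

set_option autoImplicit false
set_option linter.style.haveILetI false

noncomputable section

open AlgebraicCurve ModularCurve Polynomial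

namespace FermatAgent.Igusa.Down

open FermatAgent.Igusa FermatAgent.ModFun

local notation "ℚ̄" => AlgebraicClosure ℚ

theorem isFunctionField1_bar (N : ℕ) [NeZero N] :
    Curve.IsFunctionField1 ℚ̄ (modularFunctionFieldBar N) := by
  haveI := FermatAgent.ModFun.finiteDimensional_adjoin_jBar ℚ̄ N
  exact Curve.IsFunctionField1.of_finiteDimensional (FermatAgent.ModFun.transcendental_jBar ℚ̄ N)

variable {A : ValuationSubring ℚ̄} {ℓ : ℕ}

theorem charP_residueField (hℓ : ℓ.Prime) (hA : A.LiesOverPrime ℓ) :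
    CharP (IsLocalRing.ResidueField A) ℓ := by
  refine (CharP.charP_iff_prime_eq_zero hℓ).mpr ?_
  rw [← map_natCast (IsLocalRing.residue A), IsLocalRing.residue_eq_zero_iff,
    ← ValuationSubring.coe_mem_nonunits_iff]
  simpa [ValuationSubring.LiesOverPrime] using hA

variable (N : ℕ) [NeZero N] (hℓ : ℓ.Prime) (hℓN : ¬ ℓ ∣ N) (hA : A.LiesOverPrime ℓ)

/-- The good reduction datum of `X₀(N)` at a place over `ℓ ∤ N`. -/
def datum : JacCharts.GoodReductionDatum A (IsLocalRing.residue A) (modularFunctionFieldBar N)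
    (modularFunctionFieldFullC (IsLocalRing.ResidueField A) N) :=
  haveI := Fact.mk hℓ
  haveI := charP_residueField hℓ hA
  haveI := isAlgClosed_residueField A
  haveI := isFunctionField1_bar N
  haveI := isFunctionField1_fibre A N hℓN hA
  (modelData A N hℓN hA).toGoodReductionDatum

include hℓ hℓN hA in
theorem isFunctionField1_fibre' :
    Curve.IsFunctionField1 (IsLocalRing.ResidueField A)
      (modularFunctionFieldFullC (IsLocalRing.ResidueField A) N) :=
  haveI := Fact.mk hℓ
  haveI := charP_residueField hℓ hA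
  isFunctionField1_fibre A N hℓN hA

theorem mem_fieldC {x : LaurentSeries ℚ̄} (hx : x ∈ modularFunctionFieldBar N) :
    x ∈ modularFunctionFieldC ℚ̄ N := by
  rw [← laurentBaseChange_full_eq]; exact hx

theorem gev_mem_bar (P : A[X][X]) :
    coeffMap A.subtype (gev A N P) ∈ modularFunctionFieldBar N := by
  show _ ∈ laurentBaseChange ℚ̄ (modularFunctionFieldFull N)
  rw [laurentBaseChange_full_eq, coeffMap_gev]
  exact gev_mem ℚ̄ N _

theorem gevC_mem_bar (Q : A[X]) :
    coeffMap A.subtype (gevC A Q) ∈ modularFunctionFieldBar N := by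
  rw [← gev_C A N]; exact gev_mem_bar N _

/-- The datum is Laurent: `A`-integral series are integral and reduce coefficientwise. -/
theorem isLaurent_datum : (datum N hℓ hℓN hA).IsLaurent := by
  haveI := Fact.mk hℓ
  haveI := charP_residueField hℓ hA
  haveI : Fact (Function.Surjective (IsLocalRing.residue A)) :=
    ⟨IsLocalRing.residue_surjective⟩
  have hser : ∀ (x : modularFunctionFieldBar N)
      (hx : ∀ n : ℤ, (x : LaurentSeries ℚ̄).coeff n ∈ A), ∃ (y : LaurentSeries A),
        coeffMap A.subtype y = (x : LaurentSeries ℚ̄) ∧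
        ∀ n, (y.coeff n : A) = ⟨_, hx n⟩ := fun x hx =>
    ⟨⟨fun n => ⟨_, hx n⟩, (x : LaurentSeries ℚ̄).isPWO_support.mono fun n hn => by
      simpa [Function.mem_support, Subtype.ext_iff] using hn⟩, HahnSeries.ext rfl, fun _ => rfl⟩
  refine ⟨fun x hx => ?_, fun x hx n => ?_, fun x => ?_⟩
  · obtain ⟨y, hy, -⟩ := hser x hx
    obtain ⟨h, -⟩ := coeffMap_mem_gaussRing A (IsLocalRing.residue A) N ℓ hℓN
      (mem_fieldC N (hy ▸ x.2))
    rw [hy] at h
    exact (mem_intBar A N x).mpr h
  · obtain ⟨y, hy, hyn⟩ := hser x hx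
    obtain ⟨h, hr⟩ := coeffMap_mem_gaussRing A (IsLocalRing.residue A) N ℓ hℓN
      (mem_fieldC N (hy ▸ (x : modularFunctionFieldBar N).2))
    show (gaussRed A (IsLocalRing.residue A) N ⟨_, x.2⟩).coeff n = _
    rw [show (⟨_, x.2⟩ : gaussRing A (IsLocalRing.residue A) N) = ⟨_, h⟩ from Subtype.ext hy.symm,
      hr, coeffMap_coeff, hyn n]
  · obtain ⟨P, Q, hrep⟩ := x.2
    have hcoeff : ∀ (y : LaurentSeries A) (n : ℤ), (coeffMap A.subtype y).coeff n ∈ A :=
      fun y n => by rw [coeffMap_coeff]; exact (y.coeff n).2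
    refine ⟨⟨⟨_, gev_mem_bar N P⟩, gev_mem_gaussRing A (IsLocalRing.residue A) N P⟩,
      ⟨⟨_, gevC_mem_bar N Q⟩, ?_⟩, hcoeff _, hcoeff _, ?_, Subtype.ext (Subtype.ext hrep.2)⟩
    · show coeffMap A.subtype (gevC A Q) ∈ gaussRing A (IsLocalRing.residue A) N
      rw [← gev_C A N]
      exact gev_mem_gaussRing A _ N _
    · intro h0
      have h1 := congrArg Subtype.val h0
      refine gevC_red_ne_zero (π := IsLocalRing.residue A) hrep.1 ?_
      have e : ∀ (h : coeffMap A.subtype (gevC A Q) ∈ gaussRing A (IsLocalRing.residue A) N),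
          gaussRed A (IsLocalRing.residue A) N ⟨_, h⟩ =
            coeffMap (IsLocalRing.residue A) (gevC A Q) := fun h => by
        rw [gaussRed_eq A (IsLocalRing.residue A) N ⟨_, h⟩ (P := C Q) (Q := 1)
          ⟨by rw [Polynomial.map_one]; exact one_ne_zero, by rw [map_one, map_one, mul_one, gev_C]⟩,
          map_one, map_one, div_one, gev_C]
      exact (e _).symm.trans h1

include hℓ hℓN hA in
/-- The reduction inputs at a good place. -/
theorem reductionInputsModL : ReductionInputsModL A N :=
  haveI := isAlgClosed_residueField A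
  haveI := isFunctionField1_bar N
  haveI := isFunctionField1_fibre' N hℓ hℓN hA
  (isLaurent_datum N hℓ hℓN hA).reductionInputsAlong

include hℓ hℓN hA in
/-- Reduction is injective on torsion of order prime to `ℓ`. -/
theorem eq_zero_of_reductionModL_eq_zero (h : ReductionInputsModL A N) {m : ℕ} (hm : ¬ ℓ ∣ m)
    {z : JZero N} (hmz : m • z = 0) (hz : reductionModL A N z = 0) : z = 0 := by
  haveI := isAlgClosed_residueField A
  haveI := isFunctionField1_bar N
  haveI := isFunctionField1_fibre' N hℓ hℓN hA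
  haveI := Fact.mk hℓ
  haveI := charP_residueField hℓ hA
  haveI : Infinite (IsLocalRing.ResidueField A) := IsAlgClosed.instInfinite
  exact (isLaurent_datum N hℓ hℓN hA).eq_zero_of_reductionAlong_eq_zero h hz
    (fun h0 => hm ((CharP.cast_eq_zero_iff (IsLocalRing.ResidueField A) ℓ m).mp h0)) hmz

end FermatAgent.Igusa.Down

end
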