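import Fermat.Agent.BadRed.Semistable.Gauss
import Fermat.Agent.Curve.RR.Setup

/-!
# Products of sections

If the sections `V` of `E₁` have no common zero and `deg E₂` is large then `V * L(E₂)` fills
`L(E₁ + E₂)`. Auxiliary facts on divisors of functions.
-/

set_option autoImplicit false
set_option linter.unusedSectionVars false
set_option linter.style.haveILetI false

noncomputable section

open WithZero AlgebraicCurve

namespace FermatAgent.Igusa

open FermatAgent.Curve FermatAgent.Curve.RR

variable {k : Type*} [Field k] [IsAlgClosed k] {G : Type*} [Field G] [Algebra k G]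
  [IsFunctionField1 k G]

/-- Elements with a bounded pole at one place. -/
def localSub (Q : Place k G) (c : ℤ) : Submodule k G where
  carrier := {x | Q.adicValuation x ≤ exp c}
  zero_mem' := by simp
  add_mem' := fun {x y} hx hy => by
    show Q.adicValuation (x + y) ≤ exp c
    exact (Valuation.map_add _ x y).trans (max_le hx hy)
  smul_mem' := fun a x hx => by
    show Q.adicValuation (a • x) ≤ exp c
    rw [Algebra.smul_def, map_mul]
    exact (mul_le_mul' (Q.adicValuation_algebraMap_le_one a) hx).trans_eq (one_mul _)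

theorem mem_localSub {Q : Place k G} {c : ℤ} {x : G} :
    x ∈ localSub Q c ↔ x = 0 ∨ -c ≤ Q.ord x := by
  show Q.adicValuation x ≤ exp c ↔ _
  exact Q.adicValuation_le_exp_iff

theorem divFn_add_nonneg {E : Divisor k G} {p : G} (hp : p ≠ 0) (h : p ∈ riemannRochSpace E) :
    0 ≤ divFn (K := k) p + E := Finsupp.le_def.mpr fun v => by
  have := (mem_riemannRochSpace_iff.mp h v).resolve_left hp
  rw [Finsupp.add_apply, divFn_apply, Finsupp.zero_apply]
  omega

theorem mem_rrSpace_add_sub_divFn {E : Divisor k G} {p a : G} (hp : p ≠ 0)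
    (ha : a ∈ riemannRochSpace (E - divFn (K := k) p)) : a * p⁻¹ ∈ riemannRochSpace E :=
  mem_riemannRochSpace_iff.mpr fun v => by
    rcases eq_or_ne a 0 with rfl | ha0
    · exact Or.inl (zero_mul _)
    · refine Or.inr ?_
      have := (mem_riemannRochSpace_iff.mp ha v).resolve_left ha0
      rw [Finsupp.sub_apply, divFn_apply] at this
      rw [v.ord_mul ha0 (inv_ne_zero hp), v.ord_inv]
      omega

/-- Effective divisors of equal degree comparable for the order are equal. -/
theorem eq_of_le_of_degree_eq {D E : Divisor k G} (h : D ≤ E)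
    (hd : Divisor.degree D = Divisor.degree E) : D = E := by
  refine le_antisymm h (Finsupp.le_def.mpr fun v => ?_)
  by_contra hv
  push Not at hv
  have h1 : D + Finsupp.single v 1 ≤ E := Finsupp.le_def.mpr fun w => by
    rcases eq_or_ne w v with rfl | hw
    · rw [Finsupp.add_apply, Finsupp.single_eq_same]; omega
    · rw [Finsupp.add_apply, Finsupp.single_eq_of_ne hw, add_zero]
      exact Finsupp.le_def.mp h w
  have h2 := degree_mono h1
  rw [map_add, degree_single] at h2
  omega

theorem degree_mapDomain {K F : Type*} [Field K] [IsAlgClosed K] [Field F] [Algebra K F]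
    [IsFunctionField1 K F] (r : Place K F → Place k G) (Z : Divisor K F) :
    Divisor.degree (Finsupp.mapDomain r Z) = Divisor.degree Z := by
  induction Z using Finsupp.induction_linear with
  | zero => simp
  | add f g hf hg => rw [Finsupp.mapDomain_add, map_add, map_add, hf, hg]
  | single a b => rw [Finsupp.mapDomain_single, degree_single, degree_single]

/-- A base point free space of sections times the sections of a large divisor. -/
theorem rrSpace_add_le {E₁ E₂ : Divisor k G} {V W : Submodule k G}
    (hV : V ≤ riemannRochSpace E₁)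
    (hbp : ∀ Q : Place k G, ∃ p ∈ V, p ≠ 0 ∧ Q.ord p = -E₁ Q)
    (h : 2 * (genusFF k G : ℤ) - 1 + Divisor.degree E₁ ≤ Divisor.degree E₂)
    (hW : ∀ x ∈ V, ∀ y ∈ riemannRochSpace E₂, x * y ∈ W) :
    riemannRochSpace (E₁ + E₂) ≤ W := by
  classical
  obtain ⟨Q₀⟩ := RRSetting.nonempty_place (K := k) (F := G)
  obtain ⟨p, hp, hp0, -⟩ := hbp Q₀
  set Z := divFn (K := k) p + E₁ with hZdef
  have hZ : 0 ≤ Z := divFn_add_nonneg hp0 (hV hp)
  -- a second section without zero on the support of `Z`
  obtain ⟨p', hp', hp'0, hp'Z⟩ : ∃ p' ∈ V, p' ≠ 0 ∧ ∀ Q ∈ Z.support, Q.ord p' = -E₁ Q := by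
    by_cases hs : Z.support.Nonempty
    · let q : {Q // Q ∈ Z.support} → Subspace k V := fun Q =>
        (localSub Q.1 (E₁ Q.1 - 1)).comap V.subtype
      by_contra hno
      push Not at hno
      obtain ⟨Q, hQ⟩ := Subspace.exists_eq_top_of_iUnion_eq_univ (p := q) (by
        refine Set.eq_univ_iff_forall.mpr fun f => ?_
        rcases eq_or_ne (f : G) 0 with h0 | h0
        · obtain ⟨Q, hQ⟩ := hs
          exact Set.mem_iUnion.mpr ⟨⟨Q, hQ⟩, mem_localSub.mpr (Or.inl h0)⟩
        · obtain ⟨Q, hQ, hne⟩ := hno f f.2 h0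
          refine Set.mem_iUnion.mpr ⟨⟨Q, hQ⟩, mem_localSub.mpr (Or.inr ?_)⟩
          have := (mem_riemannRochSpace_iff.mp (hV f.2) Q).resolve_left h0
          show -(E₁ Q - 1) ≤ Q.ord (f : G)
          omega)
      obtain ⟨f, hf, h0, ho⟩ := hbp Q.1
      have : (⟨f, hf⟩ : V) ∈ q Q := by rw [hQ]; exact Submodule.mem_top
      have := (mem_localSub.mp this).resolve_left h0
      change _ ≤ Q.1.ord f at this
      omega
    · exact ⟨p, hp, hp0, fun Q hQ => absurd ⟨Q, hQ⟩ hs⟩
  set Z' := divFn (K := k) p' + E₁ with hZ'def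
  have hZ' : 0 ≤ Z' := divFn_add_nonneg hp'0 (hV hp')
  have hdeg : Divisor.degree Z = Divisor.degree E₁ := by rw [map_add, degree_divFn, zero_add]
  have hdeg' : Divisor.degree Z' = Divisor.degree E₁ := by rw [map_add, degree_divFn, zero_add]
  have hd0 : 0 ≤ Divisor.degree E₁ := hdeg ▸ RR.degree_nonneg hZ
  set A := riemannRochSpace (E₁ + E₂ - Z) with hA
  set B := riemannRochSpace (E₁ + E₂ - Z') with hB
  have hAW : A ≤ W := fun a ha => by
    have e : E₁ + E₂ - Z = E₂ - divFn (K := k) p := by rw [hZdef]; abel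
    rw [hA, e] at ha
    have := hW p hp _ (mem_rrSpace_add_sub_divFn hp0 ha)
    rwa [mul_left_comm, mul_inv_cancel₀ hp0, mul_one] at this
  have hBW : B ≤ W := fun a ha => by
    have e : E₁ + E₂ - Z' = E₂ - divFn (K := k) p' := by rw [hZ'def]; abel
    rw [hB, e] at ha
    have := hW p' hp' _ (mem_rrSpace_add_sub_divFn hp'0 ha)
    rwa [mul_left_comm, mul_inv_cancel₀ hp'0, mul_one] at this
  have hinf : A ⊓ B ≤ riemannRochSpace (E₁ + E₂ - Z - Z') := fun a ha => by
    refine mem_riemannRochSpace_iff.mpr fun v => ?_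
    rcases eq_or_ne a 0 with rfl | ha0
    · exact Or.inl rfl
    refine Or.inr ?_
    have h1 := (mem_riemannRochSpace_iff.mp ha.1 v).resolve_left ha0
    have h2 := (mem_riemannRochSpace_iff.mp ha.2 v).resolve_left ha0
    simp only [Finsupp.sub_apply, Finsupp.add_apply] at h1 h2 ⊢
    by_cases hv : v ∈ Z.support
    · have : Z' v = 0 := by
        rw [hZ'def, Finsupp.add_apply, divFn_apply, hp'Z v hv]; omega
      omega
    · have : Z v = 0 := Finsupp.notMem_support_iff.mp hv
      omega
  haveI : Module.Finite k A := finiteRRSpace _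
  haveI : Module.Finite k B := finiteRRSpace _
  haveI : Module.Finite k (riemannRochSpace (E₁ + E₂ - Z - Z')) := finiteRRSpace _
  haveI : Module.Finite k (riemannRochSpace (E₁ + E₂)) := finiteRRSpace _
  have hsum := Submodule.finrank_sup_add_finrank_inf_eq A B
  have hinf' := Submodule.finrank_mono hinf
  have eA := ell_eq_of_degree_ge (D := E₁ + E₂ - Z) (by rw [map_sub, map_add, hdeg]; omega)
  have eB := ell_eq_of_degree_ge (D := E₁ + E₂ - Z') (by rw [map_sub, map_add, hdeg']; omega)
  have eI := ell_eq_of_degree_ge (D := E₁ + E₂ - Z - Z')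
    (by rw [map_sub, map_sub, map_add, hdeg, hdeg']; omega)
  have eT := ell_eq_of_degree_ge (D := E₁ + E₂) (by rw [map_add]; omega)
  rw [map_sub, map_add, hdeg] at eA
  rw [map_sub, map_add, hdeg'] at eB
  rw [map_sub, map_sub, map_add, hdeg, hdeg'] at eI
  rw [map_add] at eT
  unfold ell at eA eB eI eT
  have hle : A ⊔ B ≤ riemannRochSpace (E₁ + E₂) :=
    sup_le (RR.riemannRochSpace_mono (sub_le_self _ hZ))
      (RR.riemannRochSpace_mono (sub_le_self _ hZ'))
  haveI : Module.Finite k (A ⊔ B : Submodule k G) := Submodule.finite_sup _ _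
  have heq : A ⊔ B = riemannRochSpace (E₁ + E₂) :=
    Submodule.eq_of_le_of_finrank_le hle (by rw [← hA] at eA; rw [← hB] at eB; omega)
  rw [← heq]
  exact sup_le hAW hBW

end FermatAgent.Igusa

end
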