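import Fermat.Agent.Igusa.GoodRed.Basic
import Fermat.Agent.Igusa.GoodRed.Spanning

/-!
# The covering of the line

Polynomials in `t`, the divisor of poles of `t`, bases of `F` over `K(t)` lifting bases over
`k(t̄)`, and integral bases with independent reductions of finite-dimensional subspaces.
-/

set_option autoImplicit false
set_option linter.unusedSectionVars false
set_option linter.style.haveILetI false

noncomputable section

open AlgebraicCurve Polynomial IntermediateField

namespace FermatAgent.Igusa

open FermatAgent.Curve FermatAgent.Curve.RR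

open FermatAgent.BadRed.Semistable (exists_dominant exists_integral_basis)

/-- The bound on poles in terms of the pole divisor. -/
theorem boundedPoles_iff {k G : Type*} [Field k] [IsAlgClosed k] [Field G] [Algebra k G]
    [IsFunctionField1 k G] {t : G} (ht : t ≠ 0) (n : ℕ) (f : G) :
    BoundedPoles k t n f ↔ f ∈ riemannRochSpace (n • polePart (K := k) t) := by
  rw [mem_riemannRochSpace_iff]
  refine forall_congr' fun v => ?_
  rw [Finsupp.smul_apply, nsmul_eq_mul, polePart_apply]
  rcases eq_or_ne f 0 with rfl | hf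
  · simp [zero_mem]
  have hft : f / t ^ n ≠ 0 := div_ne_zero hf (pow_ne_zero _ ht)
  rw [RR.mem_iff_ord_nonneg v ht, RR.mem_iff_ord_nonneg v hf, RR.mem_iff_ord_nonneg v hft,
    Curve.ord_div v hf (pow_ne_zero _ ht), Curve.ord_pow', or_iff_right hf, not_le]
  rcases lt_or_ge (v.ord t) 0 with h | h
  · rw [max_eq_right (by omega), mul_neg, neg_neg]
    constructor
    · intro hh
      have := hh.2 h
      omega
    · exact fun hh => ⟨fun h' => absurd h' (not_le.mpr h), fun _ => by omega⟩
  · rw [max_eq_left (by omega), mul_zero, neg_zero]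
    exact ⟨fun hh => hh.1 h, fun hh => ⟨fun _ => hh, fun h' => absurd h (not_le.mpr h')⟩⟩

/-- The elements with poles only above `t = ∞`, up to a polynomial factor. -/
theorem exists_aeval_mul_mem {k G : Type*} [Field k] [IsAlgClosed k] [Field G] [Algebra k G]
    [IsFunctionField1 k G] {t : G} (ht : Transcendental k t) (f : G) (n₀ : ℕ) :
    ∃ (P : k[X]) (n : ℕ), P ≠ 0 ∧ n₀ ≤ n ∧
      aeval t P * f ∈ riemannRochSpace (n • polePart (K := k) t) := by
  classical
  let S := (divFn (K := k) f).support.filter fun v => 0 ≤ v.ord t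
  let P : k[X] := ∏ v ∈ S, (X - C (valueAt v t)) ^ (v.ord f).natAbs
  have hP : P ≠ 0 := Finset.prod_ne_zero_iff.mpr fun v _ => pow_ne_zero _ (X_sub_C_ne_zero _)
  have hne : ∀ c : k, t - algebraMap k G c ≠ 0 := fun c h =>
    transcendental_iff_notMem_range.mp ht ⟨c, (sub_eq_zero.mp h).symm⟩
  have hPt : aeval t P = ∏ v ∈ S, (t - algebraMap k G (valueAt v t)) ^ (v.ord f).natAbs := by
    simp [P, map_prod]
  have hPt0 : aeval t P ≠ 0 := by
    rw [hPt]; exact Finset.prod_ne_zero_iff.mpr fun v _ => pow_ne_zero _ (hne _)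
  rcases eq_or_ne f 0 with rfl | hf
  · exact ⟨1, n₀, one_ne_zero, le_rfl, by rw [mul_zero]; exact zero_mem _⟩
  set g := aeval t P * f with hg
  have hg0 : g ≠ 0 := mul_ne_zero hPt0 hf
  let n := max n₀ ((divFn (K := k) g).support.sup fun v => (v.ord g).natAbs)
  refine ⟨P, n, hP, le_max_left _ _, mem_riemannRochSpace_iff.mpr fun w => Or.inr ?_⟩
  rw [Finsupp.smul_apply, nsmul_eq_mul, polePart_apply]
  rcases le_or_gt 0 (w.ord t) with hw | hw
  · rw [max_eq_left (by omega), mul_zero, neg_zero, w.ord_mul hPt0 hf, hPt,
      Curve.ord_prod w S _ (fun v _ => pow_ne_zero _ (hne _))]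
    have hterm : ∀ v, 0 ≤ w.ord (t - algebraMap k G (valueAt v t)) := fun v => by
      rcases RR.le_ord_add w (f := t) (g := -algebraMap k G (valueAt v t)) (n := 0) (Or.inr hw)
        (Or.inr (by rw [Curve.ord_neg, Curve.ord_algebraMap_const])) with h | h
      · exact absurd (by rwa [sub_eq_add_neg]) (hne (valueAt v t))
      · rwa [sub_eq_add_neg]
    have hnn : ∀ v ∈ S, 0 ≤ w.ord ((t - algebraMap k G (valueAt v t)) ^ (v.ord f).natAbs) :=
      fun v _ => by
        rw [Curve.ord_pow']
        exact mul_nonneg (Int.natCast_nonneg _) (hterm v)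
    by_cases hwS : w ∈ S
    · have h1 := Finset.single_le_sum hnn hwS
      rw [Curve.ord_pow'] at h1
      have h2 : 0 < w.ord (t - algebraMap k G (valueAt w t)) :=
        (valueAt_spec w (RR.mem_of_eq_zero_or_ord_nonneg w (Or.inr hw))).resolve_left
          fun e => hne _ (sub_eq_zero.mpr e)
      have h3 : ((w.ord f).natAbs : ℤ) * 1 ≤
          ((w.ord f).natAbs : ℤ) * w.ord (t - algebraMap k G (valueAt w t)) :=
        mul_le_mul_of_nonneg_left (by omega) (Int.natCast_nonneg _)
      have h4 : -((w.ord f).natAbs : ℤ) ≤ w.ord f := by omega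
      omega
    · have : w.ord f = 0 := by
        by_contra hh
        exact hwS (Finset.mem_filter.mpr ⟨Finsupp.mem_support_iff.mpr
          (by rwa [divFn_apply]), hw⟩)
      rw [this, add_zero]
      exact Finset.sum_nonneg hnn
  · rw [max_eq_right (by omega), ← hg]
    have h1 : (n : ℤ) * 1 ≤ (n : ℤ) * -w.ord t :=
      mul_le_mul_of_nonneg_left (by omega) (Int.natCast_nonneg _)
    by_cases hwg : w ∈ (divFn (K := k) g).support
    · have h2 : (w.ord g).natAbs ≤ n :=
        le_max_of_le_right (Finset.le_sup (f := fun v => (v.ord g).natAbs) hwg)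
      omega
    · have : w.ord g = 0 := by rw [← divFn_apply]; exact Finsupp.notMem_support_iff.mp hwg
      omega

namespace ModelData

variable {K : Type*} [Field K] [IsAlgClosed K] {A : ValuationSubring K} {k : Type*} [Field k]
  [IsAlgClosed k] {π : A →+* k} {F : Type*} [Field F] [Algebra K F] [IsFunctionField1 K F]
  {Fb : Type*} [Field Fb] [Algebra k Fb] [IsFunctionField1 k Fb]
variable (d : ModelData A π F Fb)

/-- Evaluation at `t` of polynomials over `A`. -/
def evalT : A[X] →+* d.integers := eval₂RingHom d.const d.t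

theorem coe_evalT (P : A[X]) : (d.evalT P : F) = aeval (d.t : F) (P.map A.subtype) := by
  show d.integers.subtype (P.eval₂ d.const d.t) = _
  rw [hom_eval₂, aeval_def, eval₂_map]
  rfl

theorem red_evalT (P : A[X]) : d.red (d.evalT P) = aeval (d.red d.t) (P.map π) := by
  show d.red (P.eval₂ d.const d.t) = _
  rw [hom_eval₂, aeval_def, eval₂_map]
  congr 1
  exact RingHom.ext d.red_const

theorem red_t_ne_zero : d.red d.t ≠ 0 := fun h =>
  d.transcendental (h ▸ isAlgebraic_zero)

theorem t_ne_zero : (d.t : F) ≠ 0 := d.ne_zero_of_red_ne_zero d.red_t_ne_zero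

/-- The reduced monomials. -/
theorem linearIndependent_red_pow (N : ℕ) :
    LinearIndependent k (fun j : Fin N => d.red d.t ^ (j : ℕ)) := by
  have h2 : LinearIndependent k (fun j : Fin N => (X : k[X]) ^ (j : ℕ)) := by
    have := (Polynomial.basisMonomials k).linearIndependent.comp
      (fun j : Fin N => (j : ℕ)) Fin.val_injective
    convert this using 1
    ext j : 1
    simp [X_pow_eq_monomial]
  have h3 := h2.map' (Polynomial.aeval (R := k) (d.red d.t)).toLinearMap
    (LinearMap.ker_eq_bot.mpr (transcendental_iff_injective.mp d.transcendental))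
  have e : (fun j : Fin N => d.red d.t ^ (j : ℕ)) =
      (Polynomial.aeval (R := k) (d.red d.t)).toLinearMap ∘ fun j : Fin N => (X : k[X]) ^ (j : ℕ) := by
    funext j
    simp
  rw [e]
  exact h3

theorem transcendental_t : Transcendental K (d.t : F) := by
  rw [transcendental_iff]
  intro p hp
  have hli := d.linearIndependent_of_red (fun j : Fin (p.natDegree + 1) => d.t ^ (j : ℕ))
    (by simpa only [map_pow] using d.linearIndependent_red_pow _)
  have hz : ∑ j : Fin (p.natDegree + 1),
      p.coeff (j : ℕ) • ((d.t ^ (j : ℕ) : d.integers) : F) = 0 := by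
    rw [Fin.sum_univ_eq_sum_range (fun j => p.coeff j • ((d.t ^ j : d.integers) : F)), ← hp,
      aeval_eq_sum_range]
    simp
  have h := Fintype.linearIndependent_iff.mp hli _ hz
  ext j
  by_cases hj : j ≤ p.natDegree
  · simpa using h ⟨j, by omega⟩
  · simpa using coeff_eq_zero_of_natDegree_lt (not_le.mp hj)

/-- The divisor of poles of `t`. -/
def D : Divisor K F := polePart (K := K) (d.t : F)

/-- The divisor of poles of the reduction of `t`. -/
def Db : Divisor k Fb := polePart (K := k) (d.red d.t)

/-- The degree of the covering. -/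
def deg : ℕ := Module.finrank K⟮(d.t : F)⟯ F

theorem degree_D : Divisor.degree d.D = (d.deg : ℤ) := degree_polePart_eq d.transcendental_t

theorem degree_Db : Divisor.degree d.Db = (d.deg : ℤ) := by
  rw [Db, degree_polePart_eq d.transcendental, deg, d.finrank_eq]

theorem deg_pos : 0 < d.deg := finrank_adjoin_pos d.transcendental_t

/-- The bound beyond which sections lift. -/
def n₀ : ℕ := d.exists_lift.choose

theorem exists_lift_section {n : ℕ} (hn : d.n₀ ≤ n) {p : Fb}
    (hp : p ∈ riemannRochSpace (n • d.Db)) :
    ∃ f : d.integers, (f : F) ∈ riemannRochSpace (n • d.D) ∧ d.red f = p := by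
  obtain ⟨f, hf, e⟩ := d.exists_lift.choose_spec n p hn
    ((boundedPoles_iff d.red_t_ne_zero n p).mpr hp)
  exact ⟨f, (boundedPoles_iff d.t_ne_zero n _).mp hf, e⟩

/-- Integers reducing to a basis over `k(t̄)`. -/
theorem exists_basisLift : ∃ b : Fin d.deg → d.integers,
    LinearIndependent k⟮d.red d.t⟯ (fun i => d.red (b i)) := by
  classical
  haveI := finiteDimensional_adjoin_of_transcendental d.transcendental
  let u := Module.finBasisOfFinrankEq k⟮d.red d.t⟯ Fb (show _ = d.deg from d.finrank_eq)
  choose P n hP hn hmem using fun i => exists_aeval_mul_mem d.transcendental (u i) d.n₀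
  choose b hbL hb using fun i => d.exists_lift_section (hn i) (hmem i)
  refine ⟨b, ?_⟩
  have hne : ∀ i, aeval (d.red d.t) (P i) ≠ 0 := fun i h =>
    hP i (transcendental_iff.mp d.transcendental _ h)
  let w : Fin d.deg → (k⟮d.red d.t⟯)ˣ := fun i => Units.mk0
    ⟨aeval (d.red d.t) (P i), algebra_adjoin_le_adjoin _ _ (aeval_mem_adjoin_singleton _ _)⟩
    (fun h => hne i (congrArg Subtype.val h))
  have := u.linearIndependent.units_smul w
  convert this using 1
  funext i
  rw [hb i]
  rfl

/-- A chosen lift of a basis over `k(t̄)`. -/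
def bas : Fin d.deg → d.integers := d.exists_basisLift.choose

/-- The monomials `t ^ j * bas i`. -/
def mono (N : ℕ) (p : Fin N × Fin d.deg) : d.integers := d.t ^ (p.1 : ℕ) * d.bas p.2

theorem linearIndependent_red_mono (N : ℕ) :
    LinearIndependent k (fun p => d.red (d.mono N p)) := by
  have ht : d.red d.t ∈ k⟮d.red d.t⟯ := mem_adjoin_simple_self k _
  have hli0 : LinearIndependent k
      (fun j : Fin N => (⟨d.red d.t, ht⟩ : k⟮d.red d.t⟯) ^ (j : ℕ)) := by
    refine LinearIndependent.of_comp (k⟮d.red d.t⟯.val.toLinearMap) ?_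
    convert d.linearIndependent_red_pow N using 1
    funext j
    simp
  have h := linearIndependent_smul hli0 d.exists_basisLift.choose_spec
  convert h using 1
  funext p
  rw [mono, map_mul, map_pow, Algebra.smul_def]
  rfl

/-- Coordinates with respect to the monomials. -/
def coords (N : ℕ) : (Fin N × Fin d.deg → K) →ₗ[K] F :=
  Fintype.linearCombination K fun p => (d.mono N p : F)

theorem coords_apply (N : ℕ) (c : Fin N × Fin d.deg → K) :
    d.coords N c = ∑ p, c p • (d.mono N p : F) := rfl

theorem coords_injective (N : ℕ) : Function.Injective (d.coords N) := by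
  rw [← LinearMap.ker_eq_bot, Submodule.eq_bot_iff]
  intro c hc
  exact funext (Fintype.linearIndependent_iff.mp
    (d.linearIndependent_of_red _ (d.linearIndependent_red_mono N)) c
    ((d.coords_apply N c).symm.trans hc))

/-- Combinations of the lifted basis with polynomial coefficients. -/
def polyComb (p : Fin d.deg → K[X]) : F := ∑ i, aeval (d.t : F) (p i) * (d.bas i : F)

theorem polyComb_mem_range {N : ℕ} {p : Fin d.deg → K[X]} (h : ∀ i, (p i).natDegree < N) :
    d.polyComb p ∈ LinearMap.range (d.coords N) := by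
  refine ⟨fun q => (p q.2).coeff (q.1 : ℕ), ?_⟩
  rw [coords_apply, Fintype.sum_prod_type, Finset.sum_comm, polyComb]
  refine Finset.sum_congr rfl fun i _ => ?_
  rw [aeval_eq_sum_range' (h i), Finset.sum_mul,
    ← Fin.sum_univ_eq_sum_range (fun j => (p i).coeff j • (d.t : F) ^ j * (d.bas i : F))]
  refine Finset.sum_congr rfl fun j _ => ?_
  simp only [mono, MulMemClass.coe_mul, SubmonoidClass.coe_pow, smul_mul_assoc]

theorem polyComb_eq_zero {p : Fin d.deg → K[X]} (h : d.polyComb p = 0) : p = 0 := by
  set N := (Finset.univ.sup fun i => (p i).natDegree) + 1 with hN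
  have hlt : ∀ i, (p i).natDegree < N := fun i => by
    have := Finset.le_sup (f := fun i => (p i).natDegree) (Finset.mem_univ i)
    omega
  have : d.coords N (fun q => (p q.2).coeff (q.1 : ℕ)) = d.coords N 0 := by
    rw [map_zero, ← h, coords_apply, Fintype.sum_prod_type, Finset.sum_comm, polyComb]
    refine Finset.sum_congr rfl fun i _ => ?_
    rw [aeval_eq_sum_range' (hlt i), Finset.sum_mul,
      ← Fin.sum_univ_eq_sum_range (fun j => (p i).coeff j • (d.t : F) ^ j * (d.bas i : F))]
    refine Finset.sum_congr rfl fun j _ => ?_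
    simp only [mono, MulMemClass.coe_mul, SubmonoidClass.coe_pow, smul_mul_assoc]
  have hz := congrFun (d.coords_injective N this)
  funext i
  ext j
  by_cases hj : j < N
  · simpa using hz (⟨j, hj⟩, i)
  · rw [Pi.zero_apply, coeff_zero, coeff_eq_zero_of_natDegree_lt]
    have := hlt i
    omega

/-- Every function is a combination of the lifted basis with coefficients in `K(t)`. -/
theorem exists_mul_eq_polyComb (f : F) :
    ∃ (P : K[X]) (p : Fin d.deg → K[X]), P ≠ 0 ∧ aeval (d.t : F) P * f = d.polyComb p := by
  classical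
  haveI := finiteDimensional_adjoin_of_transcendental d.transcendental_t
  have key : ∀ (r s : Fin d.deg → K[X]), (∀ i, aeval (d.t : F) (s i) ≠ 0) →
      aeval (d.t : F) (∏ i, s i) *
          ∑ i, (aeval (d.t : F) (r i) / aeval (d.t : F) (s i)) * (d.bas i : F) =
        d.polyComb fun i => r i * ∏ j ∈ Finset.univ.erase i, s j := by
    intro r s hs
    rw [Finset.mul_sum, polyComb]
    refine Finset.sum_congr rfl fun i _ => ?_
    rw [← Finset.mul_prod_erase _ _ (Finset.mem_univ i), map_mul, map_mul]
    field_simp [hs i]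
  have hli : LinearIndependent K⟮(d.t : F)⟯ (fun i => (d.bas i : F)) := by
    refine Fintype.linearIndependent_iff.mpr fun c hc => ?_
    choose r s hrs using fun i => IntermediateField.mem_adjoin_simple_iff K (c i : F) |>.mp (c i).2
    by_cases hs : ∀ i, aeval (d.t : F) (s i) ≠ 0
    · have h1 := key r s hs
      have h2 : ∑ i, (aeval (d.t : F) (r i) / aeval (d.t : F) (s i)) * (d.bas i : F) = 0 := by
        rw [← hc]
        exact Finset.sum_congr rfl fun i _ => by rw [← hrs i]; rfl
      rw [h2, mul_zero] at h1
      intro i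
      have h3 := congrFun (d.polyComb_eq_zero h1.symm) i
      rw [Pi.zero_apply, mul_eq_zero] at h3
      have h4 : r i = 0 := h3.resolve_right fun h => by
        obtain ⟨j, -, hj⟩ := Finset.prod_eq_zero_iff.mp h
        exact hs j (by rw [hj, map_zero])
      exact Subtype.ext (by rw [hrs i, h4, map_zero, zero_div]; rfl)
    · -- replace vanishing denominators, whose coefficients vanish
      let r' := fun i => if aeval (d.t : F) (s i) = 0 then 0 else r i
      let s' := fun i => if aeval (d.t : F) (s i) = 0 then 1 else s i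
      have hrs' : ∀ i, (c i : F) = aeval (d.t : F) (r' i) / aeval (d.t : F) (s' i) := fun i => by
        simp only [r', s']
        split_ifs with h
        · rw [hrs i, h, div_zero, map_zero, zero_div]
        · exact hrs i
      have hs' : ∀ i, aeval (d.t : F) (s' i) ≠ 0 := fun i => by
        simp only [s']
        split_ifs with h
        · simp
        · exact h
      have h1 := key r' s' hs'
      have h2 : ∑ i, (aeval (d.t : F) (r' i) / aeval (d.t : F) (s' i)) * (d.bas i : F) = 0 := by
        rw [← hc]
        exact Finset.sum_congr rfl fun i _ => by rw [← hrs' i]; rfl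
      rw [h2, mul_zero] at h1
      intro i
      have h3 := congrFun (d.polyComb_eq_zero h1.symm) i
      rw [Pi.zero_apply, mul_eq_zero] at h3
      have h4 : r' i = 0 := h3.resolve_right fun h => by
        obtain ⟨j, -, hj⟩ := Finset.prod_eq_zero_iff.mp h
        exact hs' j (by rw [hj, map_zero])
      exact Subtype.ext (by rw [hrs' i, h4, map_zero, zero_div]; rfl)
  have hspan := hli.span_eq_top_of_card_eq_finrank' (Fintype.card_fin _)
  obtain ⟨c, hc⟩ := (Submodule.mem_span_range_iff_exists_fun K⟮(d.t : F)⟯).mp
    (show f ∈ Submodule.span K⟮(d.t : F)⟯ (Set.range fun i => (d.bas i : F)) by rw [hspan]; trivial)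
  choose r s hrs using fun i => IntermediateField.mem_adjoin_simple_iff K (c i : F) |>.mp (c i).2
  let r' := fun i => if aeval (d.t : F) (s i) = 0 then 0 else r i
  let s' := fun i => if aeval (d.t : F) (s i) = 0 then 1 else s i
  have hs' : ∀ i, aeval (d.t : F) (s' i) ≠ 0 := fun i => by
    simp only [s']
    split_ifs with h
    · simp
    · exact h
  refine ⟨∏ i, s' i, fun i => r' i * ∏ j ∈ Finset.univ.erase i, s' j,
    Finset.prod_ne_zero_iff.mpr fun i _ h => hs' i (by rw [h, map_zero]), ?_⟩
  rw [← key r' s' hs', ← hc]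
  refine congrArg _ (Finset.sum_congr rfl fun i _ => ?_)
  show (c i : F) * _ = _
  simp only [r', s']
  split_ifs with h
  · rw [hrs i, h, div_zero, map_zero, zero_div]
  · rw [hrs i]

/-- Scale a polynomial to integral coefficients with non-zero reduction. -/
theorem exists_integral_multiple {P : K[X]} (hP : P ≠ 0) :
    ∃ Q : A[X], (∃ c : K, c ≠ 0 ∧ Q.map A.subtype = C c * P) ∧ Q.map π ≠ 0 := by
  classical
  set v : Fin (P.natDegree + 1) → K := fun j => P.coeff (j : ℕ)
  have hv : v ≠ 0 := fun h => leadingCoeff_ne_zero.mpr hP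
    (by simpa [v] using congrFun h ⟨P.natDegree, Nat.lt_succ_self _⟩)
  obtain ⟨i, hi, hdom⟩ := exists_dominant (A := A) v hv
  let Q : A[X] := ∑ j : Fin (P.natDegree + 1), monomial (j : ℕ) (⟨v j / v i, hdom j⟩ : A)
  have hQ : ∀ j : Fin (P.natDegree + 1), Q.coeff (j : ℕ) = ⟨v j / v i, hdom j⟩ := fun j => by
    simp [Q, finsetSum_coeff, coeff_monomial, Fin.val_inj]
  refine ⟨Q, ⟨(v i)⁻¹, inv_ne_zero hi, ?_⟩, fun h => ?_⟩
  · ext j
    rw [coeff_map, coeff_C_mul]
    by_cases hj : j ≤ P.natDegree
    · rw [hQ ⟨j, by omega⟩]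
      show v _ / v i = _
      rw [div_eq_inv_mul]
    · have h0 : Q.coeff j = 0 := by
        simp only [Q, finsetSum_coeff, coeff_monomial]
        exact Finset.sum_eq_zero fun l _ => if_neg (by omega)
      rw [h0, coeff_eq_zero_of_natDegree_lt (not_le.mp hj), map_zero, mul_zero]
  · have := congrArg (fun R : k[X] => R.coeff (i : ℕ)) h
    simp only [coeff_map, coeff_zero, hQ] at this
    rw [show (⟨v i / v i, hdom i⟩ : A) = 1 from Subtype.ext (div_self hi), map_one] at this
    exact one_ne_zero this

theorem exists_orthBasis_aux {V : Submodule K F} {n N : ℕ} (hn : Module.finrank K V = n)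
    {x : d.integers} (hx : d.red x ≠ 0)
    (hV : ∀ v ∈ V, (x : F) * v ∈ LinearMap.range (d.coords N)) :
    ∃ b : Fin n → d.integers,
      (∀ i, ((b i : d.integers) : F) ∈ V) ∧ LinearIndependent k (fun i => d.red (b i)) := by
  let M : F →ₗ[K] F := LinearMap.mulLeft K (x : F)
  have hMinj : Function.Injective M := mul_right_injective₀ (d.ne_zero_of_red_ne_zero hx)
  have hVr : V.map M ≤ LinearMap.range (d.coords N) := by
    rintro _ ⟨v, hv, rfl⟩
    exact hV v hv
  have hfin : Module.finrank K ((V.map M).comap (d.coords N)) = n := by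
    rw [(Submodule.equivMapOfInjective _ (d.coords_injective N) _).finrank_eq,
      Submodule.map_comap_eq, inf_eq_right.mpr hVr,
      ← (Submodule.equivMapOfInjective M hMinj V).finrank_eq, hn]
  obtain ⟨β, hβV, hβ⟩ := exists_integral_basis π (A := A) n _ hfin
  choose w hwV hw using fun i => Submodule.mem_map.mp (Submodule.mem_comap.mp (hβV i))
  have hy : ∀ i, (x : F) * w i = ∑ p, ((β i p : A) : K) • (d.mono N p : F) := fun i => by
    rw [← d.coords_apply N (fun p => ((β i p : A) : K))]
    exact hw i
  have hwmem : ∀ i, w i ∈ d.integers := fun i =>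
    d.mem_of_mul_mem hx (by rw [mul_comm, hy i]; exact d.sum_mem' (β i) (d.mono N))
  refine ⟨fun i => ⟨w i, hwmem i⟩, fun i => hwV i, ?_⟩
  have hred : ∀ i, d.red x * d.red ⟨w i, hwmem i⟩ =
      Fintype.linearCombination k (fun p => d.red (d.mono N p)) (fun p => π (β i p)) := fun i => by
    rw [← map_mul, Fintype.linearCombination_apply, ← d.red_sum (β i) (d.mono N)]
    exact congrArg d.red (Subtype.ext (hy i))
  have hliy : LinearIndependent k
      (fun i => d.red x * d.red ⟨w i, hwmem i⟩) := by
    have := hβ.map' (Fintype.linearCombination k fun p => d.red (d.mono N p)) (by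
      rw [Submodule.eq_bot_iff]
      intro z hz
      exact funext (Fintype.linearIndependent_iff.mp (d.linearIndependent_red_mono N) z
        (LinearMap.mem_ker.mp hz)))
    simpa only [Function.comp_def, ← hred] using this
  exact LinearIndependent.of_comp (LinearMap.mulLeft k (d.red x)) hliy

/-- Finite-dimensional subspaces have integral bases with independent reductions. -/
theorem exists_orthBasis (V : Submodule K F) (hV : Module.Finite K V) :
    ∃ b : Fin (Module.finrank K V) → d.integers,
      (∀ i, ((b i : d.integers) : F) ∈ V) ∧ LinearIndependent k (fun i => d.red (b i)) := by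
  classical
  have := hV
  let u := Module.finBasis K V
  choose P p hP hp using fun m => d.exists_mul_eq_polyComb (u m : F)
  obtain ⟨Q, ⟨c, -, hQc⟩, hQ⟩ := exists_integral_multiple (π := π)
    (Finset.prod_ne_zero_iff.mpr fun m (_ : m ∈ Finset.univ) => hP m)
  have hxr : d.red (d.evalT Q) ≠ 0 := by
    rw [red_evalT]
    exact fun h => hQ (transcendental_iff.mp d.transcendental _ h)
  obtain ⟨q, hq⟩ : ∃ q : Fin (Module.finrank K V) → Fin d.deg → K[X],
      ∀ m, (d.evalT Q : F) * (u m : F) = d.polyComb (q m) := by
    refine ⟨fun m i => C c * (∏ l ∈ Finset.univ.erase m, P l) * p m i, fun m => ?_⟩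
    rw [coe_evalT, hQc, ← Finset.mul_prod_erase _ _ (Finset.mem_univ m)]
    simp only [map_mul, polyComb]
    rw [show aeval (d.t : F) (C c) * (aeval (d.t : F) (P m) *
        aeval (d.t : F) (∏ l ∈ Finset.univ.erase m, P l)) * (u m : F) =
      aeval (d.t : F) (C c) * aeval (d.t : F) (∏ l ∈ Finset.univ.erase m, P l) *
        (aeval (d.t : F) (P m) * (u m : F)) by ring, hp m, polyComb, Finset.mul_sum]
    exact Finset.sum_congr rfl fun i _ => by ring
  obtain ⟨N, hN⟩ : ∃ N, ∀ m i, (q m i).natDegree < N :=
    ⟨(Finset.univ.sup fun z : _ × _ => (q z.1 z.2).natDegree) + 1, fun m i => Nat.lt_succ_of_le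
      (Finset.le_sup (f := fun z : _ × _ => (q z.1 z.2).natDegree) (Finset.mem_univ (m, i)))⟩
  refine d.exists_orthBasis_aux (N := N) rfl hxr fun v hv => ?_
  have h1 : (⟨v, hv⟩ : V) ∈ Submodule.span K (Set.range u) := by rw [u.span_eq]; trivial
  obtain ⟨a, ha⟩ := (Submodule.mem_span_range_iff_exists_fun K).mp h1
  have h2 : ∑ m, a m • (u m : F) = v := by simpa using congrArg Subtype.val ha
  rw [← h2, Finset.mul_sum]
  refine sum_mem fun m _ => ?_
  rw [mul_smul_comm, hq m]
  exact Submodule.smul_mem _ _ (d.polyComb_mem_range (hN m))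

theorem finrank_redImage (V : Submodule K F) [hV : Module.Finite K V] :
    Module.Finite k (d.redImage V) ∧
      Module.finrank k (d.redImage V) = Module.finrank K V := by
  obtain ⟨b, hbV, hli⟩ := d.exists_orthBasis V hV
  have hliK := d.linearIndependent_of_red b hli
  have hspan : V ≤ Submodule.span K (Set.range fun i => (b i : F)) := by
    have hle : Submodule.span K (Set.range fun i => (b i : F)) ≤ V :=
      Submodule.span_le.mpr (by rintro _ ⟨i, rfl⟩; exact hbV i)
    exact (Submodule.eq_of_le_of_finrank_le hle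
      (by rw [finrank_span_eq_card hliK, Fintype.card_fin])).ge
  rw [d.redImage_eq_span b hbV hspan hli]
  exact ⟨Module.Finite.span_of_finite k (Set.finite_range _),
    by rw [finrank_span_eq_card hli, Fintype.card_fin]⟩

end ModelData

end FermatAgent.Igusa

end
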