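import Fermat.Agent.Igusa.GoodRed.Place
import Fermat.Agent.JacCharts.Datum

/-!
# Good reduction data from models

The divisor of an integer with non-zero reduction reduces to the divisor of its reduction; a
`ModelData` therefore gives a `GoodReductionDatum`.
-/

set_option autoImplicit false

noncomputable section

open WithZero AlgebraicCurve IntermediateField

namespace FermatAgent.Igusa

open FermatAgent.Curve FermatAgent.Curve.RR

open FermatAgent.BadRed.Semistable (mul_mem_rrSpace)

namespace ModelData

variable {K : Type*} [Field K] [IsAlgClosed K] {A : ValuationSubring K} {k : Type*} [Field k]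
  [IsAlgClosed k] {π : A →+* k} {F : Type*} [Field F] [Algebra K F] [IsFunctionField1 K F]
  {Fb : Type*} [Field Fb] [Algebra k Fb] [IsFunctionField1 k Fb]
variable (d : ModelData A π F Fb)

theorem mapDomain_section_le {n : ℕ} {f : d.integers} (hf : (f : F) ∈ riemannRochSpace (n • d.D))
    (h0 : d.red f ≠ 0) :
    Finsupp.mapDomain d.place (divFn (K := K) (f : F) + n • d.D) ≤
      divFn (K := k) (d.red f) + n • d.Db := by
  have hf0 := d.ne_zero_of_red_ne_zero h0
  set Z := divFn (K := K) (f : F) + n • d.D with hZdef
  have hZ : 0 ≤ Z := divFn_add_nonneg hf0 hf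
  obtain ⟨N, hN⟩ := d.vanImage_eq hZ
  set m := N + d.N₀ with hm
  have hmd := d.le_degree_nsmul_D m
  refine Finsupp.le_def.mpr fun Q => ?_
  obtain ⟨s, hs, hs0, hso⟩ := exists_mem_ord_eq (D := m • d.Db)
    (by rw [d.degree_nsmul_eq]; unfold N₀ at hm; omega) Q
  obtain ⟨S, hS, hSr⟩ := d.exists_lift_section (show d.n₀ ≤ m by unfold N₀ at hm; omega) hs
  have hmem : ((f * S : d.integers) : F) ∈ riemannRochSpace ((n + m) • d.D - Z) := by
    rw [MulMemClass.coe_mul]
    have h1 : (f : F) ∈ riemannRochSpace (n • d.D - Z) :=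
      mem_riemannRochSpace_iff.mpr fun v => Or.inr (by
        rw [hZdef, Finsupp.sub_apply, Finsupp.add_apply, divFn_apply]; omega)
    have := mul_mem_rrSpace h1 hS
    rwa [sub_add_eq_add_sub, ← add_nsmul] at this
  have h2 : d.red f * s ∈ d.vanImage (n + m) Z := ⟨f * S, hmem, by rw [map_mul, hSr]⟩
  rw [hN _ (by omega)] at h2
  have h3 := (mem_riemannRochSpace_iff.mp h2 Q).resolve_left (mul_ne_zero h0 hs0)
  rw [Q.ord_mul h0 hs0, hso, Finsupp.sub_apply, Finsupp.smul_apply, Finsupp.smul_apply,
    nsmul_eq_mul, nsmul_eq_mul] at h3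
  rw [Finsupp.add_apply, divFn_apply, Finsupp.smul_apply, nsmul_eq_mul]
  push_cast at h3
  linarith

theorem mapDomain_section {n : ℕ} {f : d.integers} (hf : (f : F) ∈ riemannRochSpace (n • d.D))
    (h0 : d.red f ≠ 0) :
    Finsupp.mapDomain d.place (divFn (K := K) (f : F) + n • d.D) =
      divFn (K := k) (d.red f) + n • d.Db := by
  refine eq_of_le_of_degree_eq (d.mapDomain_section_le hf h0) ?_
  rw [degree_mapDomain, map_add, map_add, degree_divFn, degree_divFn, d.degree_nsmul_eq]

/-- The divisor of an integer with non-zero reduction reduces to the divisor of the reduction. -/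
theorem mapDomain_divFn {x : d.integers} (h0 : d.red x ≠ 0) :
    Finsupp.mapDomain d.place (divFn (K := K) (x : F)) = divFn (K := k) (d.red x) := by
  have hx0 := d.ne_zero_of_red_ne_zero h0
  set Z := polePart (K := K) (x : F) with hZdef
  have hZ : 0 ≤ Z := polePart_nonneg _
  set m := d.N₀ + (Divisor.degree Z).toNat with hm
  have hmd := d.le_degree_nsmul_D m
  have hz := RR.degree_nonneg hZ
  have hell := ell_eq_of_degree_ge (D := m • d.D - Z)
    (by rw [map_sub]; unfold N₀ at hm; omega)
  have hpos : riemannRochSpace (m • d.D - Z) ≠ ⊥ := fun e => by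
    unfold ell at hell
    rw [e, finrank_bot, map_sub] at hell
    unfold N₀ at hm
    omega
  obtain ⟨s₀, hs₀, hs₀0⟩ := Submodule.exists_mem_ne_zero_of_ne_bot hpos
  obtain ⟨c, hc, hcr⟩ := d.exists_normalize s₀ hs₀0
  set S : d.integers := ⟨c • s₀, hc⟩
  have hS : (S : F) ∈ riemannRochSpace (m • d.D - Z) := Submodule.smul_mem _ c hs₀
  have hS0 := d.ne_zero_of_red_ne_zero hcr
  have hxS : ((x * S : d.integers) : F) ∈ riemannRochSpace (m • d.D) := by
    rw [MulMemClass.coe_mul]
    have h1 : (x : F) ∈ riemannRochSpace Z := mem_riemannRochSpace_iff.mpr fun v => Or.inr (by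
      rw [hZdef, polePart_apply]; omega)
    have := mul_mem_rrSpace h1 hS
    rwa [add_sub_cancel] at this
  have e1 := d.mapDomain_section hxS (by rw [map_mul]; exact mul_ne_zero h0 hcr)
  have e2 := d.mapDomain_section (RR.riemannRochSpace_mono (sub_le_self _ hZ) hS) hcr
  have a1 : divFn (K := K) ((x : F) * (S : F)) =
      divFn (K := K) (x : F) + divFn (K := K) (S : F) :=
    Finsupp.ext fun v => by
      rw [Finsupp.add_apply, divFn_apply, divFn_apply, divFn_apply, v.ord_mul hx0 hS0]
  have a2 : divFn (K := k) (d.red x * d.red S) =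
      divFn (K := k) (d.red x) + divFn (K := k) (d.red S) :=
    Finsupp.ext fun v => by
      rw [Finsupp.add_apply, divFn_apply, divFn_apply, divFn_apply, v.ord_mul h0 hcr]
  rw [MulMemClass.coe_mul, map_mul, a1, a2, add_assoc, Finsupp.mapDomain_add, e2, add_assoc] at e1
  exact add_right_cancel e1

/-- The good reduction datum of a model. -/
def toGoodReductionDatum : JacCharts.GoodReductionDatum A π F Fb where
  residue_surjective := d.residue_surjective
  integers := d.integers
  red := d.red
  algebraMap_mem := d.algebraMap_mem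
  red_algebraMap := d.red_algebraMap
  exists_normalize := d.exists_normalize
  exists_orthBasis := d.exists_orthBasis
  place := d.place
  mapDomain_place := fun x h0 D hD Q => by
    have e : D = divFn (K := K) (x : F) :=
      Finsupp.ext fun P => by rw [hD, divFn_apply]
    rw [e, d.mapDomain_divFn h0, divFn_apply]
  genus_eq := d.genus_eq

@[simp]
theorem toGoodReductionDatum_integers : d.toGoodReductionDatum.integers = d.integers := rfl

end ModelData

end FermatAgent.Igusa

end
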