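import Fermat.Agent.Igusa.Fibre.Model
import Fermat.Agent.BadRed.Semistable.Gauss

/-!
# Integers with reduction: linear algebra

Integral combinations of a family with independent reductions have integral coefficients; the
reduced image of a subspace; division by residually non-zero integers.
-/

set_option autoImplicit false

noncomputable section

open AlgebraicCurve

namespace FermatAgent.Igusa

open FermatAgent.BadRed.Semistable (exists_dominant pi_inv_of_not_mem inv_mem_of_not_mem)

namespace ModelData

variable {K : Type*} [Field K] {A : ValuationSubring K} {k : Type*} [Field k] {π : A →+* k}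
  {F : Type*} [Field F] [Algebra K F] {Fb : Type*} [Field Fb] [Algebra k Fb]
variable (d : ModelData A π F Fb)

/-- The integral constants. -/
def const : A →+* d.integers :=
  ((algebraMap K F).comp A.subtype).codRestrict d.integers d.algebraMap_mem

@[simp]
theorem coe_const (a : A) : (d.const a : F) = algebraMap K F (a : K) := rfl

theorem red_const (a : A) : d.red (d.const a) = algebraMap k Fb (π a) := d.red_algebraMap a

theorem coe_const_mul (a : A) (x : d.integers) :
    ((d.const a * x : d.integers) : F) = (a : K) • (x : F) := (Algebra.smul_def _ _).symm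

theorem red_const_mul (a : A) (x : d.integers) : d.red (d.const a * x) = π a • d.red x := by
  rw [map_mul, d.red_const, ← Algebra.smul_def]

theorem red_congr {f g : F} (e : f = g) (h : f ∈ d.integers) :
    d.red ⟨f, h⟩ = d.red ⟨g, e ▸ h⟩ := by subst e; rfl

theorem smul_mem {a : K} (ha : a ∈ A) {f : F} (hf : f ∈ d.integers) : a • f ∈ d.integers := by
  rw [Algebra.smul_def]
  exact mul_mem (d.algebraMap_mem ⟨a, ha⟩) hf

theorem red_smul {a : K} (ha : a ∈ A) {f : F} (hf : f ∈ d.integers) :
    d.red ⟨a • f, d.smul_mem ha hf⟩ = π ⟨a, ha⟩ • d.red ⟨f, hf⟩ := by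
  rw [← d.red_const_mul]
  exact congrArg d.red (Subtype.ext (d.coe_const_mul ⟨a, ha⟩ ⟨f, hf⟩).symm)

theorem ne_zero_of_red_ne_zero {x : d.integers} (h : d.red x ≠ 0) : (x : F) ≠ 0 := fun e =>
  h (by rw [show x = 0 from Subtype.ext e, map_zero])

/-- An integer times an element is integral, with residually non-zero integer: the element is
integral. -/
theorem mem_of_mul_mem {f : F} {x : d.integers} (hx : d.red x ≠ 0)
    (h : f * x ∈ d.integers) : f ∈ d.integers := by
  rcases eq_or_ne f 0 with rfl | hf
  · exact zero_mem _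
  obtain ⟨c, hc, hred⟩ := d.exists_normalize f hf
  have hc0 : c ≠ 0 := fun e => hred (by
    rw [d.red_congr (by rw [e, zero_smul]) hc, ← map_zero d.red]; rfl)
  by_cases hcA : c⁻¹ ∈ A
  · have := d.smul_mem hcA hc
    rwa [inv_smul_smul₀ hc0] at this
  · have hcA' : c ∈ A := (A.mem_or_inv_mem c).resolve_right hcA
    have hπ : π ⟨c, hcA'⟩ = 0 := by
      have := pi_inv_of_not_mem d.residue_surjective hcA
      rw [← this]
      exact congrArg π (Subtype.ext (inv_inv c).symm)
    exfalso
    have h1 := d.red_smul hcA' h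
    rw [hπ, zero_smul, d.red_congr (smul_mul_assoc c f (x : F)).symm] at h1
    have h2 : d.red ⟨c • f, hc⟩ * d.red x = 0 := by
      rw [← map_mul]; exact h1
    exact (mul_ne_zero hred hx) h2

theorem sum_mem' {ι : Type*} [Fintype ι] (a : ι → A) (b : ι → d.integers) :
    ∑ i, (a i : K) • (b i : F) ∈ d.integers :=
  sum_mem fun i _ => d.smul_mem (a i).2 (b i).2

theorem red_sum {ι : Type*} [Fintype ι] (a : ι → A) (b : ι → d.integers) :
    d.red ⟨∑ i, (a i : K) • (b i : F), d.sum_mem' a b⟩ = ∑ i, π (a i) • d.red (b i) := by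
  have e : (⟨∑ i, (a i : K) • (b i : F), d.sum_mem' a b⟩ : d.integers) =
      ∑ i, d.const (a i) * b i := Subtype.ext (by
    simp only [AddSubmonoidClass.coe_finsetSum, coe_const_mul])
  rw [e, map_sum]
  exact Finset.sum_congr rfl fun i _ => d.red_const_mul _ _

/-- A family with independent reductions is independent. -/
theorem linearIndependent_of_red {ι : Type*} [Fintype ι] (b : ι → d.integers)
    (hli : LinearIndependent k (fun i => d.red (b i))) :
    LinearIndependent K (fun i => (b i : F)) := by
  refine Fintype.linearIndependent_iff.mpr fun c hc => ?_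
  by_contra hne
  push Not at hne
  have hc0 : c ≠ 0 := fun e => by obtain ⟨i, hi⟩ := hne; exact hi (by rw [e]; rfl)
  obtain ⟨j, hj, hdom⟩ := exists_dominant (A := A) c hc0
  let a : ι → A := fun l => ⟨c l / c j, hdom l⟩
  have e : ∑ l, ((a l : A) : K) • (b l : F) = 0 := by
    rw [← smul_zero (c j)⁻¹, ← hc, Finset.smul_sum]
    exact Finset.sum_congr rfl fun l _ => by simp [a, smul_smul, div_eq_inv_mul]
  have h1 := d.red_sum a b
  rw [d.red_congr e, show (⟨(0 : F), zero_mem _⟩ : d.integers) = 0 from rfl, map_zero] at h1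
  have := Fintype.linearIndependent_iff.mp hli _ h1.symm j
  rw [show a j = 1 from Subtype.ext (div_self hj), map_one] at this
  exact one_ne_zero this

/-- Integral combinations of a family with independent reductions have integral coefficients. -/
theorem coeff_mem {ι : Type*} [Fintype ι] (b : ι → d.integers)
    (hli : LinearIndependent k (fun i => d.red (b i))) (c : ι → K)
    (h : ∑ i, c i • (b i : F) ∈ d.integers) : ∀ i, c i ∈ A := by
  intro i
  by_contra hi
  have hc : c ≠ 0 := fun e => hi (by rw [e]; exact A.zero_mem)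
  obtain ⟨j, hj, hdom⟩ := exists_dominant (A := A) c hc
  have hjA : c j ∉ A := fun h' => hi (by
    have := A.mul_mem _ _ (hdom i) h'
    rwa [div_mul_cancel₀ _ hj] at this)
  let a : ι → A := fun l => ⟨c l / c j, hdom l⟩
  have e : ∑ l, ((a l : A) : K) • (b l : F) = (c j)⁻¹ • ∑ l, c l • (b l : F) := by
    rw [Finset.smul_sum]
    exact Finset.sum_congr rfl fun l _ => by simp [a, smul_smul, div_eq_inv_mul]
  have h1 := d.red_sum a b
  rw [d.red_congr e, d.red_smul (inv_mem_of_not_mem hjA) h,
    pi_inv_of_not_mem d.residue_surjective hjA, zero_smul] at h1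
  have := Fintype.linearIndependent_iff.mp hli _ h1.symm j
  rw [show a j = 1 from Subtype.ext (div_self hj), map_one] at this
  exact one_ne_zero this

/-- The reductions of the integral elements of a subspace. -/
def redImage (V : Submodule K F) : Submodule k Fb where
  carrier := {p | ∃ f : d.integers, (f : F) ∈ V ∧ d.red f = p}
  zero_mem' := ⟨0, zero_mem _, map_zero _⟩
  add_mem' := by
    rintro _ _ ⟨f, hf, rfl⟩ ⟨f', hf', rfl⟩
    exact ⟨f + f', add_mem hf hf', map_add _ _ _⟩
  smul_mem' := by
    rintro c _ ⟨f, hf, rfl⟩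
    obtain ⟨a, rfl⟩ := d.residue_surjective c
    exact ⟨d.const a * f, by rw [d.coe_const_mul]; exact V.smul_mem _ hf, d.red_const_mul a f⟩

theorem red_mem_redImage {V : Submodule K F} {f : d.integers} (h : (f : F) ∈ V) :
    d.red f ∈ d.redImage V := ⟨f, h, rfl⟩

theorem mul_mem_redImage {V V' W : Submodule K F} (hW : ∀ x ∈ V, ∀ y ∈ V', x * y ∈ W)
    {p q : Fb} (hp : p ∈ d.redImage V) (hq : q ∈ d.redImage V') : p * q ∈ d.redImage W := by
  obtain ⟨f, hf, rfl⟩ := hp
  obtain ⟨f', hf', rfl⟩ := hq
  exact ⟨f * f', hW _ hf _ hf', map_mul _ _ _⟩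

theorem redImage_eq_span {ι : Type*} [Fintype ι] {V : Submodule K F} (b : ι → d.integers)
    (hbV : ∀ i, (b i : F) ∈ V) (hspan : V ≤ Submodule.span K (Set.range fun i => (b i : F)))
    (hli : LinearIndependent k (fun i => d.red (b i))) :
    d.redImage V = Submodule.span k (Set.range fun i => d.red (b i)) := by
  refine le_antisymm ?_ (Submodule.span_le.mpr ?_)
  · rintro p ⟨f, hfV, rfl⟩
    obtain ⟨c, hc⟩ := (Submodule.mem_span_range_iff_exists_fun K).mp (hspan hfV)
    have hcA := d.coeff_mem b hli c (hc ▸ f.2)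
    let a : ι → A := fun i => ⟨c i, hcA i⟩
    have e : f = ⟨∑ i, (a i : K) • (b i : F), d.sum_mem' a b⟩ := Subtype.ext hc.symm
    rw [e, d.red_sum a b]
    exact sum_mem fun i _ => Submodule.smul_mem _ _ (Submodule.subset_span ⟨i, rfl⟩)
  · rintro _ ⟨i, rfl⟩
    exact ⟨b i, hbV i, rfl⟩

end ModelData

end FermatAgent.Igusa

end
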