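import Fermat.Agent.Igusa.GoodRed.Line

/-!
# Reduction of sections and equality of genera

For large `n` the reductions of the integral sections of `n · D` are the sections of `n · D̄`. An
integral section whose reduction has a pole outside the bound would, by its powers, make the
difference of the dimensions of reduced and lifted sections unbounded.
-/

set_option autoImplicit false
set_option linter.unusedSectionVars false
set_option linter.style.haveILetI false

noncomputable section

open WithZero AlgebraicCurve Polynomial IntermediateField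

namespace FermatAgent.Igusa

open FermatAgent.Curve FermatAgent.Curve.RR

open FermatAgent.BadRed.Semistable (mul_mem_rrSpace)

namespace ModelData

variable {K : Type*} [Field K] [IsAlgClosed K] {A : ValuationSubring K} {k : Type*} [Field k]
  [IsAlgClosed k] {π : A →+* k} {F : Type*} [Field F] [Algebra K F] [IsFunctionField1 K F]
  {Fb : Type*} [Field Fb] [Algebra k Fb] [IsFunctionField1 k Fb]
variable (d : ModelData A π F Fb)

theorem le_degree_nsmul_D (n : ℕ) : (n : ℤ) ≤ Divisor.degree (n • d.D) := by
  rw [map_nsmul, nsmul_eq_mul, d.degree_D]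
  exact le_mul_of_one_le_right (Int.natCast_nonneg n) (by exact_mod_cast d.deg_pos)

theorem degree_nsmul_eq (n : ℕ) : Divisor.degree (n • d.Db) = Divisor.degree (n • d.D) := by
  rw [map_nsmul, map_nsmul, d.degree_D, d.degree_Db]

theorem rrSpace_le_redImage {n : ℕ} (hn : d.n₀ ≤ n) :
    riemannRochSpace (n • d.Db) ≤ d.redImage (riemannRochSpace (n • d.D)) := fun p hp => by
  obtain ⟨f, hf, rfl⟩ := d.exists_lift_section hn hp
  exact d.red_mem_redImage hf

theorem finrank_redImage_rrSpace (E : Divisor K F) :
    Module.finrank k (d.redImage (riemannRochSpace E)) = ell E := by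
  haveI := finiteRRSpace E
  exact (d.finrank_redImage (riemannRochSpace E)).2

theorem finite_redImage_rrSpace (E : Divisor K F) :
    Module.Finite k (d.redImage (riemannRochSpace E)) := by
  haveI := finiteRRSpace E
  exact (d.finrank_redImage (riemannRochSpace E)).1

theorem rrSpace_mul_mem {a b c : ℕ} (h : a + b = c) {f g : F}
    (hf : f ∈ riemannRochSpace (a • d.D)) (hg : g ∈ riemannRochSpace (b • d.D)) :
    f * g ∈ riemannRochSpace (c • d.D) := by
  subst h
  rw [add_nsmul]
  exact mul_mem_rrSpace hf hg

theorem pow_mem_rrSpace {a : ℕ} {f : F} (hf : f ∈ riemannRochSpace (a • d.D)) (i : ℕ) :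
    f ^ i ∈ riemannRochSpace ((i * a) • d.D) := by
  induction i with
  | zero =>
    rw [pow_zero, Nat.zero_mul, zero_nsmul]
    exact FermatAgent.BadRed.Semistable.one_mem_rrSpace le_rfl
  | succ i ih =>
    rw [pow_succ]
    exact d.rrSpace_mul_mem (Nat.succ_mul i a).symm ih hf

/-- A large bound for Riemann–Roch on both fibres. -/
def N₀ : ℕ := d.n₀ + 2 * genusFF K F + 2 * genusFF k Fb + 1

/-- Reduction does not increase poles. -/
theorem red_mem_rrSpace {n : ℕ} {f : d.integers}
    (hf : (f : F) ∈ riemannRochSpace (n • d.D)) : d.red f ∈ riemannRochSpace (n • d.Db) := by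
  classical
  rcases eq_or_ne (d.red f) 0 with h0 | h0
  · rw [h0]; exact zero_mem _
  refine mem_riemannRochSpace_iff.mpr fun Q => Or.inr ?_
  by_contra hQ
  rw [not_le, Finsupp.smul_apply, nsmul_eq_mul] at hQ
  set j := genusFF k Fb + 1 with hj
  set m := d.N₀ with hm
  set N := j * n + m with hN
  set e : ℤ := -((n : ℤ) * d.Db Q) - Q.ord (d.red f) with he
  have he1 : 1 ≤ e := by omega
  let R := d.redImage (riemannRochSpace (N • d.D))
  let W : ℕ → Submodule k Fb := fun i => R ⊓ localSub Q ((N : ℤ) * d.Db Q + i * e)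
  haveI : Module.Finite k R := d.finite_redImage_rrSpace _
  have hfin : ∀ i, Module.Finite k (W i) := fun i => Submodule.finiteDimensional_inf_left _ _
  have hmono : ∀ i i', i ≤ i' → W i ≤ W i' := fun i i' h x hx => ⟨hx.1, mem_localSub.mpr (by
    rcases mem_localSub.mp hx.2 with h' | h'
    · exact Or.inl h'
    · refine Or.inr ?_
      have : (i : ℤ) * e ≤ (i' : ℤ) * e :=
        mul_le_mul_of_nonneg_right (by exact_mod_cast h) (by omega)
      omega)⟩
  have hstep : ∀ i, i < j → Module.finrank k (W i) + 1 ≤ Module.finrank k (W (i + 1)) := by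
    intro i hi
    -- a section of exact order
    set l := (j - (i + 1)) * n + m with hl
    have hdl : (l : ℤ) ≤ Divisor.degree (l • d.Db) := by
      rw [d.degree_nsmul_eq]; exact d.le_degree_nsmul_D l
    obtain ⟨s, hs, hs0, hso⟩ := exists_mem_ord_eq (D := l • d.Db)
      (by rw [hm, N₀] at hl; omega) Q
    obtain ⟨S, hS, hSr⟩ := d.exists_lift_section (by rw [hm, N₀] at hl; omega) hs
    have hNl : (i + 1) * n + l = N := by
      rw [hl, hN, ← add_assoc, ← add_mul, Nat.add_sub_cancel' (by omega)]
    set h := d.red f ^ (i + 1) * s with hh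
    have hhR : h ∈ R := ⟨f ^ (i + 1) * S, d.rrSpace_mul_mem hNl (d.pow_mem_rrSpace hf (i + 1)) hS,
      by rw [map_mul, map_pow, hSr]⟩
    have hh0 : h ≠ 0 := mul_ne_zero (pow_ne_zero _ h0) hs0
    have hord : Q.ord h = -((N : ℤ) * d.Db Q + ((i + 1 : ℕ) : ℤ) * e) := by
      rw [hh, Q.ord_mul (pow_ne_zero _ h0) hs0, Curve.ord_pow', hso, Finsupp.smul_apply,
        nsmul_eq_mul]
      have : ((N : ℕ) : ℤ) = ((i + 1 : ℕ) : ℤ) * n + l := by exact_mod_cast hNl.symm
      rw [he, this]
      ring
    have hlt : W i < W (i + 1) := by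
      refine lt_of_le_of_ne (hmono i (i + 1) (Nat.le_succ i)) fun heq => ?_
      have hmem : h ∈ W (i + 1) := ⟨hhR, mem_localSub.mpr (Or.inr (le_of_eq hord.symm))⟩
      rw [← heq] at hmem
      have := (mem_localSub.mp hmem.2).resolve_left hh0
      rw [hord] at this
      push_cast at this
      rw [add_mul, one_mul] at this
      omega
    haveI := hfin (i + 1)
    exact Submodule.finrank_lt_finrank_of_lt hlt
  have hgrow : ∀ i, i ≤ j → Module.finrank k (W 0) + i ≤ Module.finrank k (W i) := by
    intro i
    induction i with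
    | zero => simp
    | succ i ih =>
      intro hi
      have := hstep i (by omega)
      have := ih (by omega)
      omega
  have hNn : d.n₀ ≤ N := by rw [hN, hm, N₀]; omega
  have hW0 : riemannRochSpace (N • d.Db) ≤ W 0 := fun x hx => ⟨d.rrSpace_le_redImage hNn hx,
    mem_localSub.mpr (by
      rcases mem_riemannRochSpace_iff.mp hx Q with h | h
      · exact Or.inl h
      · refine Or.inr ?_
        rw [Finsupp.smul_apply, nsmul_eq_mul] at h
        push_cast
        omega)⟩
  haveI := hfin 0
  haveI := hfin j
  have h1 := Submodule.finrank_mono hW0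
  have h2 := hgrow j le_rfl
  have h3 : Module.finrank k (W j) ≤ Module.finrank k R := Submodule.finrank_mono inf_le_left
  rw [d.finrank_redImage_rrSpace] at h3
  have hd := d.le_degree_nsmul_D N
  have hNm : d.N₀ ≤ N := by rw [hN, hm]; omega
  have e1 := ell_eq_of_degree_ge (D := N • d.D) (by unfold N₀ at hNm; omega)
  have e2 := ell_eq_of_degree_ge (D := N • d.Db)
    (by rw [d.degree_nsmul_eq]; unfold N₀ at hNm; omega)
  rw [d.degree_nsmul_eq] at e2
  unfold ell at *
  omega

/-- The reduced sections are the sections of the reduced divisor. -/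
theorem redImage_rrSpace {n : ℕ} (hn : d.n₀ ≤ n) :
    d.redImage (riemannRochSpace (n • d.D)) = riemannRochSpace (n • d.Db) := by
  refine le_antisymm ?_ (d.rrSpace_le_redImage hn)
  rintro p ⟨f, hf, rfl⟩
  exact d.red_mem_rrSpace hf

theorem ell_nsmul_eq {n : ℕ} (hn : d.n₀ ≤ n) : ell (n • d.D) = ell (n • d.Db) := by
  rw [← d.finrank_redImage_rrSpace, d.redImage_rrSpace hn]
  rfl

include d in
/-- The genus of the reduction. -/
theorem genus_eq : genusFF k Fb = genusFF K F := by
  have hn : d.n₀ ≤ d.N₀ := by unfold N₀; omega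
  have h := d.ell_nsmul_eq hn
  have hd := d.le_degree_nsmul_D d.N₀
  have e1 := ell_eq_of_degree_ge (D := d.N₀ • d.D) (by unfold N₀ at hd ⊢; omega)
  have e2 := ell_eq_of_degree_ge (D := d.N₀ • d.Db)
    (by rw [d.degree_nsmul_eq]; unfold N₀ at hd ⊢; omega)
  rw [d.degree_nsmul_eq] at e2
  omega

end ModelData

end FermatAgent.Igusa

end
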