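import Fermat.Agent.Igusa.GoodRed.Genus

/-!
# Reduction of places

The sections of `n · D` vanishing at a place `P` reduce onto the sections of `n · D̄` vanishing at
a place `place P`; more generally for an effective divisor in place of `P`.
-/

set_option autoImplicit false
set_option linter.unusedSectionVars false
set_option linter.style.haveILetI false

noncomputable section

open WithZero AlgebraicCurve IntermediateField

namespace FermatAgent.Igusa

open FermatAgent.Curve FermatAgent.Curve.RR

open FermatAgent.BadRed.Semistable (mul_mem_rrSpace)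

namespace ModelData

variable {K : Type*} [Field K] [IsAlgClosed K] {A : ValuationSubring K} {k : Type*} [Field k]
  [IsAlgClosed k] {π : A →+* k} {F : Type*} [Field F] [Algebra K F] [IsFunctionField1 K F]
  {Fb : Type*} [Field Fb] [Algebra k Fb] [IsFunctionField1 k Fb]
variable (d : ModelData A π F Fb)

/-- The reduced sections of `n · D - Z`. -/
def vanImage (n : ℕ) (Z : Divisor K F) : Submodule k Fb :=
  d.redImage (riemannRochSpace (n • d.D - Z))

theorem vanImage_le {n : ℕ} {Z : Divisor K F} (hZ : 0 ≤ Z) :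
    d.vanImage n Z ≤ riemannRochSpace (n • d.Db) := by
  rintro p ⟨f, hf, rfl⟩
  exact d.red_mem_rrSpace (RR.riemannRochSpace_mono (sub_le_self _ hZ) hf)

theorem mul_mem_vanImage {a b c : ℕ} (h : a + b = c) {Z W : Divisor K F} {p q : Fb}
    (hp : p ∈ d.vanImage a Z) (hq : q ∈ d.vanImage b W) : p * q ∈ d.vanImage c (Z + W) := by
  subst h
  refine d.mul_mem_redImage (fun x hx y hy => ?_) hp hq
  have := mul_mem_rrSpace hx hy
  rwa [sub_add_sub_comm, ← add_nsmul] at this

theorem vanImage_zero {n : ℕ} (hn : d.n₀ ≤ n) :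
    d.vanImage n 0 = riemannRochSpace (n • d.Db) := by
  rw [vanImage, sub_zero, d.redImage_rrSpace hn]

theorem finrank_vanImage {n : ℕ} {Z : Divisor K F} (hZ : 0 ≤ Z)
    (h : d.N₀ + (Divisor.degree Z).toNat ≤ n) :
    (Module.finrank k (d.vanImage n Z) : ℤ) = ell (n • d.Db) - Divisor.degree Z := by
  have hd := d.le_degree_nsmul_D n
  have hz := RR.degree_nonneg hZ
  rw [vanImage, d.finrank_redImage_rrSpace,
    ell_sub_of_degree_ge hZ (by rw [map_sub]; unfold N₀ at h; omega),
    d.ell_nsmul_eq (by unfold N₀ at h; omega)]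

/-- Equality of a space of reduced sections with a space of sections. -/
theorem vanImage_eq_of_le {n : ℕ} {Z : Divisor K F} {W : Divisor k Fb} (hZ : 0 ≤ Z) (hW : 0 ≤ W)
    (hdeg : Divisor.degree W = Divisor.degree Z) (h : d.N₀ + (Divisor.degree Z).toNat ≤ n)
    (hle : riemannRochSpace (n • d.Db - W) ≤ d.vanImage n Z ∨
      d.vanImage n Z ≤ riemannRochSpace (n • d.Db - W)) :
    d.vanImage n Z = riemannRochSpace (n • d.Db - W) := by
  have hd := d.le_degree_nsmul_D n
  have hz := RR.degree_nonneg hZ
  have e1 := d.finrank_vanImage hZ h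
  have e2 := ell_sub_of_degree_ge (D := n • d.Db) hW
    (by rw [map_sub, d.degree_nsmul_eq, hdeg]; unfold N₀ at h; omega)
  rw [hdeg] at e2
  unfold ell at e1 e2
  haveI : Module.Finite k (d.vanImage n Z) := d.finite_redImage_rrSpace _
  haveI : Module.Finite k (riemannRochSpace (n • d.Db - W)) := finiteRRSpace _
  rcases hle with hle | hle
  · exact (Submodule.eq_of_le_of_finrank_le hle (by omega)).symm
  · exact Submodule.eq_of_le_of_finrank_le hle (by omega)

theorem degree_single_one {E : Type*} [Field E] {G : Type*} [Field G] [Algebra E G]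
    [IsAlgClosed E] [IsFunctionField1 E G] (P : Place E G) :
    Divisor.degree (Finsupp.single P (1 : ℤ)) = 1 := degree_single P 1

theorem exists_place {n : ℕ} (hn : d.N₀ + 1 ≤ n) (P : Place K F) :
    ∃ Q : Place k Fb,
      d.vanImage n (Finsupp.single P 1) = riemannRochSpace (n • d.Db - Finsupp.single Q 1) := by
  have hP := single_one_nonneg P
  have h1 : d.N₀ + (Divisor.degree (Finsupp.single P (1 : ℤ))).toNat ≤ n := by
    rw [degree_single_one]; simpa using hn
  by_contra hno
  push Not at hno
  have hbp : ∀ Q : Place k Fb, ∃ p ∈ d.vanImage n (Finsupp.single P 1), p ≠ 0 ∧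
      Q.ord p = -(n • d.Db) Q := by
    intro Q
    by_contra h
    push Not at h
    refine hno Q (d.vanImage_eq_of_le hP (single_one_nonneg Q)
      (by rw [degree_single_one, degree_single_one]) h1 (Or.inr fun p hp => ?_))
    refine mem_riemannRochSpace_iff.mpr fun v => ?_
    rcases eq_or_ne p 0 with rfl | hp0
    · exact Or.inl rfl
    refine Or.inr ?_
    have := (mem_riemannRochSpace_iff.mp (d.vanImage_le hP hp) v).resolve_left hp0
    rw [Finsupp.sub_apply]
    rcases eq_or_ne v Q with rfl | hv
    · have := h p hp hp0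
      rw [Finsupp.single_eq_same]
      omega
    · rw [Finsupp.single_eq_of_ne hv]
      omega
  set m := n * d.deg + d.N₀ with hm
  have hmd := d.le_degree_nsmul_D m
  have hdeg : Divisor.degree (n • d.Db) = ((n * d.deg : ℕ) : ℤ) := by
    rw [map_nsmul, d.degree_Db, nsmul_eq_mul]; push_cast; ring
  have hle := rrSpace_add_le (E₂ := m • d.Db) (W := d.vanImage (n + m) (Finsupp.single P 1))
    (d.vanImage_le hP) hbp
    (by rw [hdeg, d.degree_nsmul_eq]; unfold N₀ at hm; omega)
    (fun x hx y hy => by
      rw [← d.vanImage_zero (show d.n₀ ≤ m by unfold N₀ at hm; omega)] at hy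
      simpa only [add_zero] using d.mul_mem_vanImage rfl hx hy)
  rw [← add_nsmul] at hle
  haveI : Module.Finite k (d.vanImage (n + m) (Finsupp.single P 1)) := d.finite_redImage_rrSpace _
  have h2 := Submodule.finrank_mono hle
  have h3 := d.finrank_vanImage hP (n := n + m) (by omega)
  rw [degree_single_one] at h3
  unfold ell at h3
  omega

theorem eq_of_rrSpace_eq {n : ℕ} (hn : d.N₀ + 1 ≤ n) {Q Q' : Place k Fb}
    (h : riemannRochSpace (n • d.Db - Finsupp.single Q 1) =
      riemannRochSpace (n • d.Db - Finsupp.single Q' 1)) : Q = Q' := by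
  by_contra hne
  have hd := d.le_degree_nsmul_D n
  obtain ⟨f, hf, hf0, ho, hlt⟩ := exists_mem_separating (D := n • d.Db)
    (by rw [d.degree_nsmul_eq]; unfold N₀ at hn; omega) (P := Q') (Q := Q) (Ne.symm hne)
  have hmem : f ∈ riemannRochSpace (n • d.Db - Finsupp.single Q 1) := by
    refine mem_riemannRochSpace_iff.mpr fun v => Or.inr ?_
    have := (mem_riemannRochSpace_iff.mp hf v).resolve_left hf0
    rw [Finsupp.sub_apply]
    rcases eq_or_ne v Q with rfl | hv
    · rw [Finsupp.single_eq_same]; omega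
    · rw [Finsupp.single_eq_of_ne hv]; omega
  rw [h] at hmem
  have := (mem_riemannRochSpace_iff.mp hmem Q').resolve_left hf0
  rw [Finsupp.sub_apply, Finsupp.single_eq_same] at this
  omega

theorem place_eq_of_add {n m : ℕ} (hn : d.N₀ + 1 ≤ n) (hm : n * d.deg + d.N₀ ≤ m) {P : Place K F}
    {Q Q' : Place k Fb}
    (hQ : d.vanImage n (Finsupp.single P 1) = riemannRochSpace (n • d.Db - Finsupp.single Q 1))
    (hQ' : d.vanImage (n + m) (Finsupp.single P 1) =
      riemannRochSpace ((n + m) • d.Db - Finsupp.single Q' 1)) : Q = Q' := by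
  have hmd := d.le_degree_nsmul_D m
  have hnd := d.le_degree_nsmul_D n
  have hdeg : Divisor.degree (n • d.Db) = ((n * d.deg : ℕ) : ℤ) := by
    rw [map_nsmul, d.degree_Db, nsmul_eq_mul]; push_cast; ring
  set E := n • d.Db - Finsupp.single Q 1 with hE
  have hEdeg : Divisor.degree E = ((n * d.deg : ℕ) : ℤ) - 1 := by
    rw [hE, map_sub, hdeg, degree_single_one]
  have hle := rrSpace_add_le (E₁ := E) (E₂ := m • d.Db) le_rfl
    (fun v => exists_mem_ord_eq (by
      rw [hEdeg, ← hdeg, d.degree_nsmul_eq]; unfold N₀ at hn; omega) v)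
    (W := d.vanImage (n + m) (Finsupp.single P 1))
    (by rw [hEdeg, d.degree_nsmul_eq]; unfold N₀ at hm; omega)
    (fun x hx y hy => by
      rw [← hQ] at hx
      rw [← d.vanImage_zero (show d.n₀ ≤ m by unfold N₀ at hm; omega)] at hy
      simpa only [add_zero] using d.mul_mem_vanImage rfl hx hy)
  have e : E + m • d.Db = (n + m) • d.Db - Finsupp.single Q 1 := by rw [hE, add_nsmul]; abel
  rw [e] at hle
  refine d.eq_of_rrSpace_eq (n := n + m) (by omega) ?_
  rw [← d.vanImage_eq_of_le (single_one_nonneg P) (single_one_nonneg Q)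
    (by rw [degree_single_one, degree_single_one])
    (by rw [degree_single_one]; simp; omega) (Or.inl hle), hQ']

/-- The reduction of a place. -/
def place (P : Place K F) : Place k Fb := (d.exists_place (le_refl (d.N₀ + 1)) P).choose

/-- Sections vanishing at `P` reduce onto the sections vanishing at `place P`. -/
theorem vanImage_single {n : ℕ} (hn : d.N₀ + 1 ≤ n) (P : Place K F) :
    d.vanImage n (Finsupp.single P 1) =
      riemannRochSpace (n • d.Db - Finsupp.single (d.place P) 1) := by
  obtain ⟨Q, hQ⟩ := d.exists_place hn P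
  set b := (d.N₀ + 1) * d.deg + n * d.deg + d.N₀ + n with hb
  obtain ⟨Q', hQ'⟩ := d.exists_place (show d.N₀ + 1 ≤ (d.N₀ + 1) + b by omega) P
  have h1 : d.place P = Q' := d.place_eq_of_add le_rfl (by omega)
    (d.exists_place (le_refl (d.N₀ + 1)) P).choose_spec hQ'
  have hb' : d.N₀ + 1 + b = n + (d.N₀ + 1 + b - n) := by omega
  rw [hb'] at hQ'
  have h2 : Q = Q' := d.place_eq_of_add hn (by omega) hQ hQ'
  rw [h1, ← h2]
  exact hQ

theorem mapDomain_nonneg {Z : Divisor K F} (hZ : 0 ≤ Z) :
    0 ≤ Finsupp.mapDomain d.place Z := by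
  classical
  rw [Finsupp.mapDomain, Finsupp.sum]
  exact Finset.sum_nonneg fun P _ => Finsupp.single_nonneg.mpr (Finsupp.le_def.mp hZ P)

/-- Sections vanishing on `Z` reduce onto the sections vanishing on the reduction of `Z`. -/
theorem vanImage_eq {Z : Divisor K F} (hZ : 0 ≤ Z) :
    ∃ N, ∀ n, N ≤ n →
      d.vanImage n Z = riemannRochSpace (n • d.Db - Finsupp.mapDomain d.place Z) := by
  refine RR.le_induction (D₀ := 0)
    (p := fun Z => ∃ N, ∀ n, N ≤ n →
      d.vanImage n Z = riemannRochSpace (n • d.Db - Finsupp.mapDomain d.place Z)) ?_ ?_ hZ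
  · exact ⟨d.n₀, fun n hn => by rw [d.vanImage_zero hn, Finsupp.mapDomain_zero, sub_zero]⟩
  intro Z P hZ ⟨N, hN⟩
  set z := (Divisor.degree Z).toNat with hz
  have hz' := RR.degree_nonneg hZ
  set a := N + d.N₀ + z + 1 with ha
  refine ⟨a + (a * d.deg + d.N₀ + 1), fun n hn => ?_⟩
  obtain ⟨l, rfl⟩ : ∃ l, n = a + l := Nat.exists_eq_add_of_le (by omega)
  have hl := d.le_degree_nsmul_D l
  have had := d.le_degree_nsmul_D a
  have hdeg : Divisor.degree (a • d.Db) = ((a * d.deg : ℕ) : ℤ) := by
    rw [map_nsmul, d.degree_Db, nsmul_eq_mul]; push_cast; ring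
  set E₁ := a • d.Db - Finsupp.mapDomain d.place Z with hE₁
  set E₂ := l • d.Db - Finsupp.single (d.place P) 1 with hE₂
  have hd1 : Divisor.degree E₁ = ((a * d.deg : ℕ) : ℤ) - (z : ℤ) := by
    rw [hE₁, map_sub, hdeg, degree_mapDomain]; omega
  have hd2 : Divisor.degree E₂ = Divisor.degree (l • d.D) - 1 := by
    rw [hE₂, map_sub, d.degree_nsmul_eq, degree_single_one]
  have hle := rrSpace_add_le (E₁ := E₁) (E₂ := E₂) le_rfl
    (fun v => exists_mem_ord_eq (by
      rw [hd1, ← hdeg, d.degree_nsmul_eq]; unfold N₀ at ha; omega) v)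
    (W := d.vanImage (a + l) (Z + Finsupp.single P 1))
    (by rw [hd1, hd2]; unfold N₀ at hn; omega)
    (fun x hx y hy => by
      rw [hE₁, ← hN a (by omega)] at hx
      rw [hE₂, ← d.vanImage_single (by omega) P] at hy
      exact d.mul_mem_vanImage rfl hx hy)
  have e : E₁ + E₂ = (a + l) • d.Db - Finsupp.mapDomain d.place (Z + Finsupp.single P 1) := by
    rw [hE₁, hE₂, Finsupp.mapDomain_add, Finsupp.mapDomain_single, add_nsmul d.Db a l]; abel
  rw [e] at hle
  refine d.vanImage_eq_of_le (add_nonneg hZ (single_one_nonneg P))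
    (d.mapDomain_nonneg (add_nonneg hZ (single_one_nonneg P))) (degree_mapDomain _ _)
    ?_ (Or.inl hle)
  rw [map_add, degree_single_one]
  omega

end ModelData

end FermatAgent.Igusa

end
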